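/-
S55 / block INF (architect helper134) : inflation from a coarse level system `𝓝` to a finer one
`𝓝'` on the SAME group.  Definitions only.

Everything is done at finite level: no subgroup `H = ⨅ 𝓝`, no compactness hypothesis.
* `IsSmoothPart 𝓝 ι` : `ι : A₀ → A` identifies `A₀` with the `𝓝`-smooth vectors of `A`;
* `RelH90 𝓝 𝓝' A`   : "Hilbert 90 for the layers `N / N'`": for arbitrarily small `N ∈ 𝓝` every
  `𝓝'`-level map `β : G → A` which is a crossed homomorphism on `N` is principal on `N`;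
* `infl h ι n`       : `H^n(𝓝; A₀) → H^n(𝓝'; A)`.
-/
import Fermat.Agent.S55.Coh.Res

set_option autoImplicit false

namespace Fermat.Agent.S55.Inf

variable {G : Type} [Group G]

/-- `ι` identifies `A₀` with the `𝓝`-smooth vectors of `A`. -/
structure IsSmoothPart (𝓝 : LevelSys G) {A₀ A : Type} [AddCommGroup A₀] [DistribMulAction G A₀]
    [AddCommGroup A] [DistribMulAction G A] (ι : A₀ →+[G] A) : Prop where
  inj : Function.Injective ι
  surj : ∀ a : A, (∃ N ∈ 𝓝.carrier, ∀ n ∈ N, n • a = a) → ∃ a₀ : A₀, ι a₀ = a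

/-- Relative Hilbert 90. -/
def RelH90 (𝓝 𝓝' : LevelSys G) (A : Type) [AddCommGroup A] [DistribMulAction G A] : Prop :=
  ∀ N₀ ∈ 𝓝.carrier, ∃ N ∈ 𝓝.carrier, N ≤ N₀ ∧ ∀ β : G → A,
    (∃ N' ∈ 𝓝'.carrier, ∀ g, ∀ n ∈ N', β (g * n) = β g) →
    (∀ n ∈ N, ∀ n' ∈ N, β (n * n') = β n + n • β n') →
    ∃ a : A, ∀ n ∈ N, β n = n • a - a

/-- Inflation `H^n(𝓝; A₀) → H^n(𝓝'; A)`. -/
def infl {𝓝 𝓝' : LevelSys G} (h : 𝓝.Le 𝓝') {A₀ A : Type} [AddCommGroup A₀]
    [DistribMulAction G A₀] [AddCommGroup A] [DistribMulAction G A] (ι : A₀ →+[G] A) (n : ℕ) :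
    Hsm 𝓝 A₀ n →+ Hsm 𝓝' A n :=
  (Hsm.map ι n).comp (Hsm.refine A₀ h n)

end Fermat.Agent.S55.Inf
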