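/-
S55 / INF / task INF-1 : explicit differentials in degrees 0, 1, 2 and the elementary
consequences of the cocycle relations.
-/
import Fermat.Agent.S55.Inf.Defs
import Fermat.Agent.S55.Coh.H0

set_option autoImplicit false
set_option linter.unusedSectionVars false

namespace Fermat.Agent.S55.Inf

variable {G : Type} [Group G] {A : Type} [AddCommGroup A] [DistribMulAction G A]

theorem dd0 (f : (Fin 0 → G) → A) (g : Fin 1 → G) :
    dd A 0 f g = g 0 • f default - f default :=
  dd_zero_apply f g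

theorem dd1 (f : (Fin 1 → G) → A) (g : Fin 2 → G) :
    dd A 1 f g = g 0 • f ![g 1] - f ![g 0 * g 1] + f ![g 0] := by
  have h0 : (fun i : Fin 1 => g i.succ) = ![g 1] := by
    funext i; fin_cases i; rfl
  have h1 : Fin.contractNth (0 : Fin 2) (· * ·) g = ![g 0 * g 1] := by
    funext i; fin_cases i; rfl
  have h2 : Fin.contractNth (1 : Fin 2) (· * ·) g = ![g 0] := by
    funext i; fin_cases i; rfl
  rw [dd_apply, Fin.sum_univ_two, h0, h1, h2]
  simp only [Fin.val_zero, Fin.val_one, zero_add, pow_one, neg_smul, one_smul]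
  norm_num
  abel

theorem dd2 (f : (Fin 2 → G) → A) (g : Fin 3 → G) :
    dd A 2 f g = g 0 • f ![g 1, g 2] - f ![g 0 * g 1, g 2] + f ![g 0, g 1 * g 2]
      - f ![g 0, g 1] := by
  have h0 : (fun i : Fin 2 => g i.succ) = ![g 1, g 2] := by
    funext i; fin_cases i <;> rfl
  have h1 : Fin.contractNth (0 : Fin 3) (· * ·) g = ![g 0 * g 1, g 2] := by
    funext i; fin_cases i <;> rfl
  have h2 : Fin.contractNth (1 : Fin 3) (· * ·) g = ![g 0, g 1 * g 2] := by
    funext i; fin_cases i <;> rfl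
  have h3 : Fin.contractNth (2 : Fin 3) (· * ·) g = ![g 0, g 1] := by
    funext i; fin_cases i <;> rfl
  rw [dd_apply, Fin.sum_univ_three, h0, h1, h2, h3]
  simp only [Fin.val_zero, Fin.val_one, Fin.val_two, zero_add, pow_one, neg_smul, one_smul]
  norm_num
  abel

/-- a function of one variable as a 1-cochain -/
def c1 (β : G → A) : (Fin 1 → G) → A := fun g => β (g 0)

@[simp] theorem c1_apply (β : G → A) (g : Fin 1 → G) : c1 β g = β (g 0) := rfl

theorem c1_eta (f : (Fin 1 → G) → A) : c1 (fun g => f ![g]) = f := by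
  funext g
  rw [c1_apply]
  congr 1
  funext i
  fin_cases i
  rfl

theorem dd1_c1 (β : G → A) (g h : G) :
    dd A 1 (c1 β) ![g, h] = g • β h - β (g * h) + β g := by
  rw [dd1]
  rfl

theorem eta2 (g : Fin 2 → G) : ![g 0, g 1] = g := by
  funext i
  fin_cases i <;> rfl

/-- level of `c1 β` -/
theorem isLevelAt_c1_iff (N : Subgroup G) (β : G → A) :
    IsLevelAt N (c1 β) ↔ ∀ g, ∀ n ∈ N, β (g * n) = β g := by
  constructor
  · intro h g n hn
    refine (h ![g] ![g * n] fun i => ?_).symm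
    fin_cases i
    simpa using hn
  · intro h g k hgk
    have := h (g 0) _ (hgk 0)
    rw [mul_inv_cancel_left] at this
    exact this.symm

/-- level of a 2-cochain, one variable at a time -/
theorem IsLevelAt.two_left {N : Subgroup G} [N.Normal] {c : (Fin 2 → G) → A} (hc : IsLevelAt N c)
    (g h n : G) (hn : n ∈ N) : c ![n * g, h] = c ![g, h] := by
  refine hc _ _ fun i => ?_
  fin_cases i
  · change (n * g)⁻¹ * g ∈ N
    have h1 : (n * g)⁻¹ * g = g⁻¹ * n⁻¹ * g⁻¹⁻¹ := by group
    rw [h1]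
    exact Subgroup.Normal.conj_mem inferInstance _ (N.inv_mem hn) _
  · change h⁻¹ * h ∈ N
    rw [inv_mul_cancel]
    exact N.one_mem

theorem IsLevelAt.two_right {N : Subgroup G} {c : (Fin 2 → G) → A} (hc : IsLevelAt N c)
    (g h n : G) (hn : n ∈ N) : c ![g, h * n] = c ![g, h] := by
  refine hc _ _ fun i => ?_
  fin_cases i
  · change g⁻¹ * g ∈ N
    rw [inv_mul_cancel]
    exact N.one_mem
  · change (h * n)⁻¹ * h ∈ N
    have h1 : (h * n)⁻¹ * h = n⁻¹ := by group
    rw [h1]
    exact N.inv_mem hn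

theorem IsLevelAt.two_mem {N : Subgroup G} {c : (Fin 2 → G) → A} (hc : IsLevelAt N c)
    (n n' : G) (hn : n ∈ N) (hn' : n' ∈ N) : c ![n, n'] = c ![1, 1] := by
  refine hc _ _ fun i => ?_
  fin_cases i
  · change n⁻¹ * 1 ∈ N
    rw [mul_one]
    exact N.inv_mem hn
  · change n'⁻¹ * 1 ∈ N
    rw [mul_one]
    exact N.inv_mem hn'

/-- 1-cocycles vanish at `1`. -/
theorem cocycle1_one {f : (Fin 1 → G) → A} (hf : dd A 1 f = 0) : f ![1] = 0 := by
  have h := congrFun hf ![1, 1]
  rw [dd1] at h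
  simpa using h

/-- 2-cocycles: `c(1, g) = c(1, 1)` and `c(g, 1) = g • c(1, 1)`. -/
theorem cocycle2_one_left {c : (Fin 2 → G) → A} (hc : dd A 2 c = 0) (g : G) :
    c ![1, g] = c ![1, 1] := by
  have h := congrFun hc ![1, 1, g]
  rw [dd2] at h
  simp only [Matrix.cons_val_zero, Matrix.cons_val_one, Matrix.cons_val_two, Matrix.head_cons,
    Matrix.tail_cons, one_smul, one_mul, Pi.zero_apply, sub_self, zero_add] at h
  exact sub_eq_zero.mp h

theorem cocycle2_one_right {c : (Fin 2 → G) → A} (hc : dd A 2 c = 0) (g : G) :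
    c ![g, 1] = g • c ![1, 1] := by
  have h := congrFun hc ![g, 1, 1]
  rw [dd2] at h
  simp only [Matrix.cons_val_zero, Matrix.cons_val_one, Matrix.cons_val_two, Matrix.head_cons,
    Matrix.tail_cons, mul_one, Pi.zero_apply] at h
  have h2 : g • c ![1, 1] - c ![g, 1] = 0 := by
    rw [← h]
    abel
  exact (sub_eq_zero.mp h2).symm

end Fermat.Agent.S55.Inf
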