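/-
S55 / INF / task INF-2 : inflation is injective in degree 1.
Proof: `z ∈ Z^1(𝓝; A₀)` of level `N`, `ι ∘ z = d a`, i.e. `ι (z g) = g • a - a`.  For `n ∈ N`:
`z n = z 1 = 0`, so `n • a = a`; hence `a = ι a₀` and `z = d a₀` (`ι` injective).
-/
import Fermat.Agent.S55.Inf.LowDeg
import Fermat.Agent.S55.Coh.ResApi

set_option autoImplicit false

namespace Fermat.Agent.S55.Inf

variable {G : Type} [Group G] {𝓝 𝓝' : LevelSys G} {A₀ A : Type} [AddCommGroup A₀]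
  [DistribMulAction G A₀] [AddCommGroup A] [DistribMulAction G A]

/-- description of `infl` on cocycles -/
theorem infl_mk (h : 𝓝.Le 𝓝') (ι : A₀ →+[G] A) (n : ℕ) (z : Zsm 𝓝 A₀ n) :
    ∃ hz : cmap (ι : A₀ →+ A) n (z : (Fin n → G) → A₀) ∈ Zsm 𝓝' A n,
      infl h ι n (Hsm.mk 𝓝 A₀ n z) = Hsm.mk 𝓝' A n ⟨_, hz⟩ := by
  obtain ⟨hz, e⟩ := Hsm.refine_mk (A := A₀) h n z
  refine ⟨cmap_mem_Zsm ι hz, ?_⟩
  show Hsm.map ι n (Hsm.refine A₀ h n (Hsm.mk 𝓝 A₀ n z)) = _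
  rw [e, Hsm.map_mk]
  rfl

theorem infl_injective_one (h : 𝓝.Le 𝓝') (ι : A₀ →+[G] A) (hι : IsSmoothPart 𝓝 ι) :
    Function.Injective (infl h ι 1) := by
  rw [injective_iff_map_eq_zero]
  intro x hx
  induction x using Hsm.induction_on with
  | h z =>
    obtain ⟨hz, e⟩ := infl_mk h ι 1 z
    rw [e, Hsm.mk_eq_zero_iff, mem_Bsm_succ] at hx
    obtain ⟨e0, -, he0⟩ := hx
    have key : ∀ g : Fin 1 → G,
        ι ((z : (Fin 1 → G) → A₀) g) = g 0 • e0 default - e0 default := by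
      intro g
      have h1 := congrFun he0 g
      rw [dd_zero_apply] at h1
      exact h1.symm
    obtain ⟨N, hN, hlev⟩ := z.2.1
    have hz1 : (z : (Fin 1 → G) → A₀) ![1] = 0 := cocycle1_one (dd_eq_zero_of_mem_Zsm z.2)
    have hfix : ∀ n ∈ N, n • e0 default = e0 default := by
      intro n hn
      have h1 : (z : (Fin 1 → G) → A₀) ![1] = (z : (Fin 1 → G) → A₀) ![n] :=
        hlev _ _ fun i => by
          fin_cases i
          simpa using hn
      have h2 := key ![n]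
      rw [← h1, hz1, map_zero] at h2
      exact (sub_eq_zero.mp h2.symm)
    obtain ⟨a₀, ha₀⟩ := hι.surj (e0 default) ⟨N, hN, hfix⟩
    rw [Hsm.mk_eq_zero_iff, mem_Bsm_succ]
    refine ⟨fun _ => a₀, mem_Csm_zero _, ?_⟩
    funext g
    apply hι.inj
    rw [dd_zero_apply, key g, map_sub, map_smul, ha₀]

end Fermat.Agent.S55.Inf
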