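/-
S55 / INF / task INF-3 : inflation is injective in degree 2 under relative Hilbert 90.

Cochain form (`exists_level_primitive`).  `c : G² → A` a 2-cocycle of level `N₀ ∈ 𝓝`, `c = d b`
with `b = c1 β` of level `N' ∈ 𝓝'`.  Take `N ≤ N₀` as in `RelH90`.
1. Put `a₀ = c(1,1)` (it is fixed by `N`: `n • c(1,1) = c(n,1) = c(1,1)`), `β₁ g = β g - a₀`.  Then
   `d (c1 β₁) (g,h) = c(g,h) - g • a₀ =: c'(g,h)`, `c'` is a cocycle of level `N` with `c'(1,1) = 0`,
   so `c'(1,g) = 0 = c'(g,1)`, and `c'(n,n') = 0` for `n n' ∈ N`.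
2. `β₁` is a crossed homomorphism on `N`, of level `N'`: `RelH90` gives `a` with
   `β₁ n = n • a - a` on `N`.  Put `β₂ g = β₁ g - (g • a - a)`; `d (c1 β₂) = c'`, `β₂ = 0` on `N`.
3. `β₂ (g n) = β₂ g + g • β₂ n - c'(g,n) = β₂ g`  (level `N`), and
   `β₂ (n g) = β₂ n + n • β₂ g - c'(n,g) = n • β₂ g`, while `β₂ (n g) = β₂ (g (g⁻¹ n g)) = β₂ g`:
   the values of `β₂` are fixed by `N`.
4. `β₃ g = β₂ g + a₀` has level `N`, values fixed by `N`, and `d (c1 β₃) = c`.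
-/
import Fermat.Agent.S55.Inf.Abs1

set_option autoImplicit false

namespace Fermat.Agent.S55.Inf

variable {G : Type} [Group G] {𝓝 𝓝' : LevelSys G}

/-- The cochain-level statement. -/
theorem exists_level_primitive {A : Type} [AddCommGroup A] [DistribMulAction G A]
    (hR : RelH90 𝓝 𝓝' A) (c : (Fin 2 → G) → A) (hc : dd A 2 c = 0) (hcl : IsLevel 𝓝 c)
    (b : (Fin 1 → G) → A) (hbl : IsLevel 𝓝' b) (hb : dd A 1 b = c) :
    ∃ N ∈ 𝓝.carrier, ∃ b' : (Fin 1 → G) → A, IsLevelAt N b' ∧ dd A 1 b' = c ∧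
      ∀ g, ∀ n ∈ N, n • b' g = b' g := by
  obtain ⟨N₀, hN₀, hcN₀⟩ := hcl
  obtain ⟨N', hN', hbN'⟩ := hbl
  obtain ⟨N, hN, hle, hH⟩ := hR N₀ hN₀
  have : N.Normal := 𝓝.normal N hN
  have hcN : IsLevelAt N c := IsLevelAt.mono hcN₀ hle
  -- one-variable form of `b`
  set β : G → A := fun g => b ![g] with hβ
  have hbβ : c1 β = b := c1_eta b
  have hrel : ∀ g h : G, c ![g, h] = g • β h - β (g * h) + β g := by
    intro g h
    rw [← hb, ← hbβ, dd1_c1]
  have hβl : ∀ g, ∀ n ∈ N', β (g * n) = β g := by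
    have h0 : IsLevelAt N' (c1 β) := by rw [hbβ]; exact hbN'
    exact (isLevelAt_c1_iff N' β).1 h0
  set a₀ : A := c ![1, 1] with ha₀
  have hfix₀ : ∀ n ∈ N, n • a₀ = a₀ := by
    intro n hn
    rw [ha₀, ← cocycle2_one_right hc n]
    exact IsLevelAt.two_mem hcN n 1 hn N.one_mem
  -- relative Hilbert 90 applied to `β - a₀`
  obtain ⟨a, ha⟩ := hH (fun g => β g - a₀)
    ⟨N', hN', fun g n hn => by
      change β (g * n) - a₀ = β g - a₀
      rw [hβl g n hn]⟩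
    (fun n hn n' hn' => by
      change β (n * n') - a₀ = β n - a₀ + n • (β n' - a₀)
      have h1 := hrel n n'
      rw [IsLevelAt.two_mem hcN n n' hn hn', ← ha₀] at h1
      rw [smul_sub, hfix₀ n hn]
      have h2 : β (n * n') = n • β n' + β n - a₀ := by
        rw [h1]; abel
      rw [h2]; abel)
  set β₃ : G → A := fun g => β g - (g • a - a) with hβ₃
  have hrel₃ : ∀ g h : G, c ![g, h] = g • β₃ h - β₃ (g * h) + β₃ g := by
    intro g h
    rw [hrel g h]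
    simp only [hβ₃, smul_sub, mul_smul]
    abel
  have hβ₃N : ∀ n ∈ N, β₃ n = a₀ := by
    intro n hn
    have h1 : β n - a₀ = n • a - a := ha n hn
    simp only [hβ₃]
    rw [← h1]; abel
  have hlev : ∀ g, ∀ n ∈ N, β₃ (g * n) = β₃ g := by
    intro g n hn
    have h1 := hrel₃ g n
    have h2 : c ![g, n] = g • a₀ := by
      rw [ha₀, ← cocycle2_one_right hc g]
      have := IsLevelAt.two_right hcN g 1 n hn
      rwa [one_mul] at this
    rw [h2, hβ₃N n hn] at h1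
    have h3 : β₃ (g * n) = g • a₀ + β₃ g - g • a₀ := by
      nth_rewrite 2 [h1]; abel
    rw [h3]; abel
  refine ⟨N, hN, c1 β₃, (isLevelAt_c1_iff N β₃).2 hlev, ?_, ?_⟩
  · funext g
    rw [← eta2 g, dd1_c1, hrel₃]
  · intro g n hn
    rw [c1_apply]
    have h1 := hrel₃ n (g 0)
    have h2 : c ![n, g 0] = a₀ := by
      have := IsLevelAt.two_left hcN 1 (g 0) n hn
      rw [mul_one] at this
      rw [this, cocycle2_one_left hc]
    rw [h2, hβ₃N n hn] at h1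
    have h3 : β₃ (n * g 0) = β₃ (g 0) := by
      have h4 : n * g 0 = g 0 * ((g 0)⁻¹ * n * (g 0)⁻¹⁻¹) := by group
      rw [h4]
      exact hlev _ _ (Subgroup.Normal.conj_mem inferInstance n hn _)
    rw [h3] at h1
    have h5 : n • β₃ (g 0) = a₀ + β₃ (g 0) - a₀ := by
      nth_rewrite 1 [h1]; abel
    rw [h5]; abel

theorem infl_injective_two {A₀ A : Type} [AddCommGroup A₀]
    [DistribMulAction G A₀] [AddCommGroup A] [DistribMulAction G A]
    (h : 𝓝.Le 𝓝') (ι : A₀ →+[G] A) (hι : IsSmoothPart 𝓝 ι) (hR : RelH90 𝓝 𝓝' A) :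
    Function.Injective (infl h ι 2) := by
  rw [injective_iff_map_eq_zero]
  intro x hx
  induction x using Hsm.induction_on with
  | h z =>
    obtain ⟨hz, hmk⟩ := infl_mk h ι 2 z
    rw [hmk, Hsm.mk_eq_zero_iff] at hx
    obtain ⟨e, he, hde⟩ := (mem_Bsm_succ 𝓝' A).1 hx
    obtain ⟨N, hN, b', hb'l, hb'd, hb'fix⟩ := exists_level_primitive hR
      (cmap (ι : A₀ →+ A) 2 (z : (Fin 2 → G) → A₀)) hz.2
      (cmap_mem_Csm (𝓝 := 𝓝) (ι : A₀ →+ A) z.2.1) e he hde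
    choose e₀ he₀ using fun g => hι.surj (b' g) ⟨N, hN, hb'fix g⟩
    have hcm : cmap (ι : A₀ →+ A) 1 e₀ = b' := funext he₀
    rw [Hsm.mk_eq_zero_iff]
    refine (mem_Bsm_succ 𝓝 A₀).2 ⟨e₀, ?_, ?_⟩
    · refine mem_Csm_of_cmap_mem (φ := (ι : A₀ →+ A)) hι.inj ?_
      rw [hcm]
      exact ⟨N, hN, hb'l⟩
    · refine cmap_injective (φ := (ι : A₀ →+ A)) hι.inj 2 ?_
      rw [← dd_cmap, hcm, hb'd]

end Fermat.Agent.S55.Inf
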