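/-
S55 / INF / task INF-5 : relative Hilbert 90 for `lvlS S ≤ lvlAll` and `A = Map(X, Kx)`.
Proof: given `N₀` choose `N ∈ lvlS S`, `N ≤ N₀`, acting trivially on `X`
(`SmoothSet.exists_fix_all`, `LevelSys.directed`).  For `x : X` the map `n ↦ β n x` (`n ∈ N`) is a
crossed homomorphism `N → Kx` (because `N` fixes `x`), of level `N'`; apply `hilbert90_crossed` with
`H = N`, `f = N.subtype`; collect the `a_x` into `IndMod.of`.
-/
import Fermat.Agent.S55.Inf.Defs
import Fermat.Agent.S55.Arith.Hilbert90Core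
import Fermat.Agent.S55.Coh.IndMaps

set_option autoImplicit false

namespace Fermat.Agent.S55.Inf

/-- valid for ANY level system `𝓝` on `GQ` for which `X` is smooth -/
theorem relH90_ind (𝓝 : LevelSys GQ) (X : Type) [MulAction GQ X] [Finite X] [SmoothSet 𝓝 X] :
    RelH90 𝓝 lvlAll (IndMod X Kx) := by
  intro N₀ hN₀
  obtain ⟨N₁, hN₁, hfix⟩ := SmoothSet.exists_fix_all 𝓝 X
  obtain ⟨N, hN, hle⟩ := 𝓝.directed N₀ hN₀ N₁ hN₁
  refine ⟨N, hN, fun n hn => (hle hn).1, fun β hlev hcr => ?_⟩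
  obtain ⟨N', hN', hinv⟩ := hlev
  have hfixN : ∀ n ∈ N, ∀ x : X, n • x = x := fun n hn x => hfix n (hle hn).2 x
  have hx : ∀ x : X, ∃ a : Kx, ∀ h : N, β h x = (h : GQ) • a - a := by
    intro x
    apply hilbert90_crossed N.subtype (fun h : N => β h x)
    · intro h h'
      have := hcr h h.2 h' h'.2
      show β ((h * h' : N) : GQ) x = β h x + (h : GQ) • β h' x
      rw [Subgroup.coe_mul, this, IndMod.add_apply, IndMod.smul_apply,
        hfixN _ (N.inv_mem h.2)]
    · refine ⟨N', hN', fun h n hn => ?_⟩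
      show β ((h * n : N) : GQ) x = β h x
      rw [Subgroup.coe_mul, hinv (h : GQ) (n : GQ) hn]
  choose a ha using hx
  refine ⟨IndMod.of a, fun n hn => ?_⟩
  apply IndMod.ext
  intro x
  rw [IndMod.sub_apply, IndMod.smul_apply, hfixN _ (N.inv_mem hn)]
  exact ha x ⟨n, hn⟩

end Fermat.Agent.S55.Inf
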