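/-
S55 / INF / task INF-4 : instances of `IsSmoothPart`.
-/
import Fermat.Agent.S55.Inf.Defs
import Fermat.Agent.S55.Arith.Defs

set_option autoImplicit false

namespace Fermat.Agent.S55.Inf

variable {G : Type} [Group G] (𝓝 : LevelSys G)

theorem isSmoothPart_inclG (A : Type) [AddCommGroup A] [DistribMulAction G A] :
    IsSmoothPart 𝓝 (smoothPart 𝓝 A).inclG where
  inj := (smoothPart 𝓝 A).inclG_injective
  surj a ha := ⟨(smoothPart 𝓝 A).mkMod a ha, rfl⟩

/-- `Map(X, A₀)` is the smooth part of `Map(X, A)` for a finite smooth `G`-set `X`. -/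
theorem IsSmoothPart.mapCoeff {A₀ A : Type} [AddCommGroup A₀] [DistribMulAction G A₀]
    [AddCommGroup A] [DistribMulAction G A] {ι : A₀ →+[G] A} (hι : IsSmoothPart 𝓝 ι)
    (X : Type) [MulAction G X] [Finite X] [SmoothSet 𝓝 X] :
    IsSmoothPart 𝓝 (IndMod.mapCoeff X ι) where
  inj f f' h := by
    ext x
    apply hι.inj
    have := DFunLike.congr_fun h x
    simpa using this
  surj f := by
    rintro ⟨N, hN, hf⟩
    obtain ⟨N', hN', hX⟩ := SmoothSet.exists_fix_all 𝓝 X
    obtain ⟨N'', hN'', hle⟩ := 𝓝.directed N hN N' hN'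
    have hval : ∀ x : X, ∃ a₀ : A₀, ι a₀ = f x := by
      intro x
      refine hι.surj (f x) ⟨N'', hN'', fun n hn => ?_⟩
      have h1 := DFunLike.congr_fun (hf n (hle hn).1) x
      rw [IndMod.smul_apply, hX _ (N'.inv_mem (hle hn).2) x] at h1
      exact h1
    choose c hc using hval
    refine ⟨IndMod.of c, ?_⟩
    ext x
    rw [IndMod.mapCoeff_apply, IndMod.of_apply, hc]

end Fermat.Agent.S55.Inf
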