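/-
S55 / INF / task INF-6 : the exports of block INF (= U2 of the blueprint).  Consumer: UNITS.
-/
import Fermat.Agent.S55.Inf.Abs2
import Fermat.Agent.S55.Inf.SmoothPart
import Fermat.Agent.S55.Inf.RelH90
import Fermat.Agent.S55.Arith.Hilbert90
import Fermat.Agent.S55.Coh.IndApi

set_option autoImplicit false

namespace Fermat.Agent.S55.Inf

variable (S : Finset Nat.Primes) (X : Type) [MulAction GQ X]

/-- The natural map `H^n_S(Map(X, ℚ_Sˣ)) → H^n(Map(X, Qbˣ))`. -/
noncomputable def inflLS (n : ℕ) :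
    Hsm (lvlS S) (IndMod X (LSx S)) n →+ Hsm lvlAll (IndMod X Kx) n :=
  infl (lvlS_le_lvlAll S) (IndMod.mapCoeff X (LSsub S).inclG) n

theorem inflLS_apply (n : ℕ) (x : Hsm (lvlS S) (IndMod X (LSx S)) n) :
    inflLS S X n x = Hsm.map (IndMod.mapCoeff X (LSsub S).inclG) n
      (Hsm.refine (IndMod X (LSx S)) (lvlS_le_lvlAll S) n x) := rfl

variable [Finite X] [SmoothSet (lvlS S) X]

omit [Finite X] in
include S in
/-- NB: `S` is an explicit argument (`smoothSet_lvlAll S X`); the hypothesis is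
`[SmoothSet (lvlS S) X]`. -/
theorem smoothSet_lvlAll : SmoothSet lvlAll X := by
  refine ⟨fun x => ?_⟩
  obtain ⟨N, hN, h⟩ := SmoothSet.exists_fix (𝓝 := lvlS S) x
  obtain ⟨N', hN', hle⟩ := lvlS_le_lvlAll S N hN
  exact ⟨N', hN', fun n hn => h n (hle hn)⟩

theorem isSmoothPart_mapCoeff_LS :
    IsSmoothPart (lvlS S) (IndMod.mapCoeff X (LSsub S).inclG) :=
  (isSmoothPart_inclG (lvlS S) Kx).mapCoeff (lvlS S) X

/-- Hilbert 90 for `ℚ_S`. -/
theorem H1_LS_eq_zero (x : Hsm (lvlS S) (IndMod X (LSx S)) 1) : x = 0 := by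
  have hs : SmoothSet lvlAll X := smoothSet_lvlAll S X
  apply infl_injective_one (lvlS_le_lvlAll S) _ (isSmoothPart_mapCoeff_LS S X)
  rw [map_zero]
  exact hilbert90_global X _

/-- `H^2_S(Map(X, ℚ_Sˣ)) → Br` is injective. -/
theorem inflLS_injective_two : Function.Injective (inflLS S X 2) :=
  infl_injective_two (lvlS_le_lvlAll S) _ (isSmoothPart_mapCoeff_LS S X) (relH90_ind (lvlS S) X)

/-- `inflLS` is natural in `X` (pull and push) -/
theorem inflLS_pull {Y : Type} [MulAction GQ Y] (u : Y →[GQ] X) (n : ℕ)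
    (x : Hsm (lvlS S) (IndMod X (LSx S)) n) :
    inflLS S Y n (Hsm.map (IndMod.pull (LSx S) u) n x) =
      Hsm.map (IndMod.pull Kx u) n (inflLS S X n x) := by
  rw [inflLS_apply, inflLS_apply, Hsm.refine_map, ← Hsm.map_comp, ← Hsm.map_comp]
  exact DFunLike.congr_fun (Hsm.map_congr (fun f => IndMod.mapCoeff_pull _ u f) n) _

theorem inflLS_push {Y : Type} [MulAction GQ Y] [Finite Y] (u : Y →[GQ] X) (n : ℕ)
    (y : Hsm (lvlS S) (IndMod Y (LSx S)) n) :
    inflLS S X n (Hsm.map (IndMod.push (LSx S) u) n y) =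
      Hsm.map (IndMod.push Kx u) n (inflLS S Y n y) := by
  rw [inflLS_apply, inflLS_apply, Hsm.refine_map, ← Hsm.map_comp, ← Hsm.map_comp]
  exact DFunLike.congr_fun (Hsm.map_congr (fun f => IndMod.mapCoeff_push _ u f) n) _

end Fermat.Agent.S55.Inf
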